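import Fermat.Agent.S14.Frob.Extra.H16_Restrict

/-!
# S14 / Frob / Extra (helper16's pool): compositum of two extensions unramified at `Q` (X21)
-/

set_option autoImplicit false
set_option linter.unusedSectionVars false
set_option linter.unusedVariables false

namespace Fermat.Agent.S14.Frob.H16

open NumberField
open scoped Pointwise

section CompositumTwo

variable (F N₁ N₂ M : Type*) [Field F] [NumberField F] [Field N₁] [NumberField N₁]
  [Field N₂] [NumberField N₂] [Field M] [NumberField M]
  [Algebra F N₁] [Algebra F N₂] [Algebra N₁ M] [Algebra N₂ M] [Algebra F M]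
  [IsScalarTower F N₁ M] [IsScalarTower F N₂ M] [IsGalois F N₁] [IsGalois F N₂] [IsGalois F M]

/-- (X21) A compositum of two extensions unramified at (the primes below) `Q` is unramified
at `Q`.  Proof: `τ ∈ I(Q | F)` restricts to `I(Q ∩ N_i | F) = 1` (`restrictNormal_mem_inertia`,
with `IsGalois N_i M` from `IsGalois.tower_top_of_isGalois`), so `τ` fixes `N₁` and `N₂`
pointwise (`AlgEquiv.restrictNormal_commutes`), hence `τ = 1` by `hgen`. -/
theorem unramifiedAt_of_compositum_two
    (hgen : ∀ τ : M ≃ₐ[F] M, (∀ x : N₁, τ (algebraMap N₁ M x) = algebraMap N₁ M x) →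
      (∀ x : N₂, τ (algebraMap N₂ M x) = algebraMap N₂ M x) → τ = 1)
    (Q : Ideal (𝓞 M)) (h₁ : UnramifiedAt F N₁ (Q.under (𝓞 N₁)))
    (h₂ : UnramifiedAt F N₂ (Q.under (𝓞 N₂))) : UnramifiedAt F M Q := by
  have : IsGalois N₁ M := IsGalois.tower_top_of_isGalois F N₁ M
  have : IsGalois N₂ M := IsGalois.tower_top_of_isGalois F N₂ M
  unfold UnramifiedAt at h₁ h₂ ⊢
  rw [eq_bot_iff]
  intro τ hτ
  rw [Subgroup.mem_bot]
  have r1 := restrictNormal_mem_inertia F N₁ M Q hτ
  have r2 := restrictNormal_mem_inertia F N₂ M Q hτ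
  rw [h₁, Subgroup.mem_bot] at r1
  rw [h₂, Subgroup.mem_bot] at r2
  apply hgen
  · intro x
    have := AlgEquiv.restrictNormal_commutes τ N₁ x
    rw [r1] at this
    simpa using this.symm
  · intro x
    have := AlgEquiv.restrictNormal_commutes τ N₂ x
    rw [r2] at this
    simpa using this.symm

end CompositumTwo

end Fermat.Agent.S14.Frob.H16
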