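import Fermat.Agent.S14.Frob.API

/-!
# S14 / Frob / Extra (helper16's pool): multiplicativity of the orders of inertia groups in a tower
-/

set_option autoImplicit false
set_option linter.unusedSectionVars false
set_option linter.unusedVariables false

namespace Fermat.Agent.S14.Frob.H16

open NumberField
open scoped Pointwise

section Tower

variable (F N M : Type*) [Field F] [NumberField F] [Field N] [NumberField N]
  [Field M] [NumberField M] [Algebra F N] [Algebra N M] [Algebra F M] [IsScalarTower F N M]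
  [IsGalois F M] [IsGalois N M]

/-- `|I(Q | F)| = |I(Q ∩ N | F)| · |I(Q | N)|` (i.e. `e(Q|q) = e(P|q) e(Q|P)`).
Mathlib: `Ideal.card_inertia_eq_ramificationIdxIn` (three times) and
`Ideal.ramificationIdxIn_mul_ramificationIdxIn` (or `Ideal.ramificationIdxIn_eq_ramificationIdx`
and `Ideal.ramificationIdx_tower` / `Ideal.ramificationIdx_algebra_tower`), all in
`Mathlib/NumberTheory/RamificationInertia/Galois.lean` / `Basic.lean`. -/
theorem card_inertia_tower [IsGalois F N] (Q : Ideal (𝓞 M)) (hQ : Q.IsPrime) (hQ0 : Q ≠ ⊥) :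
    Nat.card (Q.inertia (M ≃ₐ[F] M)) =
      Nat.card ((Q.under (𝓞 N)).inertia (N ≃ₐ[F] N)) * Nat.card (Q.inertia (M ≃ₐ[N] M)) := by
  have hP0 : Q.under (𝓞 N) ≠ ⊥ := fun hbot => hQ0 (Ideal.eq_bot_of_comap_eq_bot hbot)
  have hq0 : Q.under (𝓞 F) ≠ ⊥ := fun hbot => hQ0 (Ideal.eq_bot_of_comap_eq_bot hbot)
  have : (Q.under (𝓞 F)).IsPrime := Ideal.IsPrime.under (𝓞 F) Q
  have : (Q.under (𝓞 N)).IsPrime := Ideal.IsPrime.under (𝓞 N) Q
  have : (Q.under (𝓞 F)).IsMaximal := Ideal.IsPrime.isMaximal inferInstance hq0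
  have : (Q.under (𝓞 N)).IsMaximal := Ideal.IsPrime.isMaximal inferInstance hP0
  have : Finite (𝓞 F ⧸ Q.under (𝓞 F)) := Ideal.finiteQuotientOfFreeOfNeBot _ hq0
  have : Finite (𝓞 N ⧸ Q.under (𝓞 N)) := Ideal.finiteQuotientOfFreeOfNeBot _ hP0
  have : PerfectField (Q.under (𝓞 F)).ResidueField := inferInstance
  have : PerfectField (Q.under (𝓞 N)).ResidueField := inferInstance
  have : (Q.under (𝓞 N)).LiesOver (Q.under (𝓞 F)) := ⟨(Ideal.under_under Q).symm⟩
  have h1 := Ideal.card_inertia_eq_ramificationIdxIn (G := M ≃ₐ[F] M) (Q.under (𝓞 F)) Q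
  have h2 := Ideal.card_inertia_eq_ramificationIdxIn (G := N ≃ₐ[F] N) (Q.under (𝓞 F))
    (Q.under (𝓞 N))
  have h3 := Ideal.card_inertia_eq_ramificationIdxIn (G := M ≃ₐ[N] M) (Q.under (𝓞 N)) Q
  have : Nonempty ((Q.under (𝓞 N)).primesOver (𝓞 M)) := ⟨⟨Q, hQ, inferInstance⟩⟩
  have h4 := Ideal.ramificationIdxIn_mul_ramificationIdxIn (p := Q.under (𝓞 F)) (Q.under (𝓞 N))
    (N ≃ₐ[F] N) (𝓞 M) (M ≃ₐ[F] M) (M ≃ₐ[N] M)
  rw [h1, h2, h3, h4]

end Tower

end Fermat.Agent.S14.Frob.H16
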