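import Fermat.Agent.S14.Frob.API

/-!
# S14 / Frob / Extra (helper16's pool): the kernel of restriction on the inertia group
-/

set_option autoImplicit false
set_option linter.unusedSectionVars false
set_option linter.unusedVariables false

namespace Fermat.Agent.S14.Frob.H16

open NumberField
open scoped Pointwise

section Tower

variable (F N M : Type*) [Field F] [NumberField F] [Field N] [NumberField N]
  [Field M] [NumberField M] [Algebra F N] [Algebra N M] [Algebra F M] [IsScalarTower F N M]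
  [IsGalois F M] [IsGalois N M]

/-- An element of `Gal(M/F)` whose restriction to `N` is trivial comes from `Gal(M/N)`. -/
theorem exists_restrictScalars_eq [IsGalois F N] (τ : M ≃ₐ[F] M)
    (h : AlgEquiv.restrictNormalHom N τ = 1) :
    ∃ σ : M ≃ₐ[N] M, σ.restrictScalars F = τ := by
  have hfix : ∀ x : N, τ (algebraMap N M x) = algebraMap N M x := by
    intro x
    have h1 := AlgEquiv.restrictNormal_commutes τ N x
    have h' : τ.restrictNormal N = 1 := h
    rw [h'] at h1
    exact h1.symm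
  refine ⟨{ τ.toRingEquiv with commutes' := hfix }, ?_⟩
  ext x
  rfl

/-- `|I(Q | F)| ≤ |image of I(Q | F) in Gal(N/F)| · |I(Q | N)|`.
Group theory: for `f : G →* G'` and `H ≤ G`: `|H| = |H.map f| * |f.ker ⊓ H|`
(`Subgroup.relIndex_ker : f.ker.relIndex K = Nat.card (K.map f)`, `Subgroup.relIndex`,
`Subgroup.card_mul_index` for `f.ker.subgroupOf H`); and `τ ↦ σ` (`exists_restrictScalars_eq`)
is an injection of `f.ker ⊓ I(Q | F)` into `I(Q | N)` (the actions of `σ` and
`σ.restrictScalars F` on `𝓞 M` agree), so `|f.ker ⊓ I(Q|F)| ≤ |I(Q|N)|`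
(`Nat.card_le_card_of_injective`; all groups are finite). -/
theorem card_inertia_le_card_map_mul [IsGalois F N] (Q : Ideal (𝓞 M)) :
    Nat.card (Q.inertia (M ≃ₐ[F] M)) ≤
      Nat.card ((Q.inertia (M ≃ₐ[F] M)).map (AlgEquiv.restrictNormalHom N)) *
        Nat.card (Q.inertia (M ≃ₐ[N] M)) := by
  have h1 : Nat.card (Q.inertia (M ≃ₐ[F] M)) =
      Nat.card ((AlgEquiv.restrictNormalHom (K₁ := M) (F := F) N).ker.subgroupOf
        (Q.inertia (M ≃ₐ[F] M))) *
      Nat.card ((Q.inertia (M ≃ₐ[F] M)).map (AlgEquiv.restrictNormalHom N)) := by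
    rw [← Subgroup.relIndex_ker (Q.inertia (M ≃ₐ[F] M)) (AlgEquiv.restrictNormalHom N),
      Subgroup.relIndex, Subgroup.card_mul_index]
  have h2 : Nat.card ((AlgEquiv.restrictNormalHom (K₁ := M) (F := F) N).ker.subgroupOf
        (Q.inertia (M ≃ₐ[F] M))) ≤ Nat.card (Q.inertia (M ≃ₐ[N] M)) := by
    have hex : ∀ τ : ((AlgEquiv.restrictNormalHom (K₁ := M) (F := F) N).ker.subgroupOf
        (Q.inertia (M ≃ₐ[F] M))), ∃ σ : M ≃ₐ[N] M,
        σ.restrictScalars F = ((τ : Q.inertia (M ≃ₐ[F] M)) : M ≃ₐ[F] M) := fun τ ↦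
      exists_restrictScalars_eq F N M _ (MonoidHom.mem_ker.mp (Subgroup.mem_subgroupOf.mp τ.2))
    choose g hg using hex
    have hmem : ∀ τ, g τ ∈ Q.inertia (M ≃ₐ[N] M) := by
      intro τ x
      have hx : ((g τ).restrictScalars F) • x = g τ • x := RingOfIntegers.ext rfl
      rw [← hx, hg]
      exact τ.1.2 x
    refine Nat.card_le_card_of_injective (fun τ ↦ ⟨g τ, hmem τ⟩) ?_
    intro τ₁ τ₂ h12
    have h3 : g τ₁ = g τ₂ := congrArg Subtype.val h12
    apply Subtype.ext
    apply Subtype.ext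
    rw [← hg τ₁, ← hg τ₂, h3]
  rw [h1, mul_comm]
  exact Nat.mul_le_mul_left _ h2

end Tower

end Fermat.Agent.S14.Frob.H16
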