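import Fermat.Agent.S14.Frob.Extra.H16_Restrict
import Fermat.Agent.S14.Frob.Extra.H16_InertiaCard
import Fermat.Agent.S14.Frob.Extra.H16_InertiaKer

/-!
# S14 / Frob / Extra (helper16's pool): inertia groups surject in towers (X20), hence
unramifiedness descends (X18)
-/

set_option autoImplicit false
set_option linter.unusedSectionVars false
set_option linter.unusedVariables false

namespace Fermat.Agent.S14.Frob.H16

open NumberField
open scoped Pointwise

section Tower

variable (F N M : Type*) [Field F] [NumberField F] [Field N] [NumberField N]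
  [Field M] [NumberField M] [Algebra F N] [Algebra N M] [Algebra F M] [IsScalarTower F N M]
  [IsGalois F M] [IsGalois N M]

/-- The image of `I(Q | F)` under restriction is all of `I(Q ∩ N | F)`.
Proof: `≤` by `restrictNormal_mem_inertia` (note `AlgEquiv.restrictNormalHom N τ =
τ.restrictNormal N` by `rfl`/`AlgEquiv.restrictNormalHom_apply`); equality by
`Subgroup.eq_of_le_of_card_ge`, since
`|I(Q∩N | F)| * |I(Q | N)| = |I(Q | F)| ≤ |image| * |I(Q | N)|`
(`card_inertia_tower`, `card_inertia_le_card_map_mul`) and `|I(Q | N)| > 0`. -/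
theorem map_inertia_eq [IsGalois F N] (Q : Ideal (𝓞 M)) (hQ : Q.IsPrime) (hQ0 : Q ≠ ⊥) :
    (Q.inertia (M ≃ₐ[F] M)).map (AlgEquiv.restrictNormalHom N) =
      (Q.under (𝓞 N)).inertia (N ≃ₐ[F] N) := by
  have hle : (Q.inertia (M ≃ₐ[F] M)).map (AlgEquiv.restrictNormalHom N) ≤
      (Q.under (𝓞 N)).inertia (N ≃ₐ[F] N) := by
    rw [Subgroup.map_le_iff_le_comap]
    intro τ hτ
    rw [Subgroup.mem_comap]
    exact restrictNormal_mem_inertia F N M Q hτ
  refine Subgroup.eq_of_le_of_card_ge hle ?_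
  have h1 := card_inertia_tower F N M Q hQ hQ0
  have h2 := card_inertia_le_card_map_mul F N M Q
  rw [h1] at h2
  have hpos : 0 < Nat.card (Q.inertia (M ≃ₐ[N] M)) := Nat.card_pos
  exact Nat.le_of_mul_le_mul_right h2 hpos

/-- (X20) Every element of the inertia group of `Q ∩ N` in `N/F` is the restriction of an element
of the inertia group of `Q` in `M/F`. -/
theorem exists_mem_inertia_restrictNormal_eq [IsGalois F N] (Q : Ideal (𝓞 M)) (hQ : Q.IsPrime)
    (hQ0 : Q ≠ ⊥) (g : N ≃ₐ[F] N) (hg : g ∈ (Q.under (𝓞 N)).inertia (N ≃ₐ[F] N)) :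
    ∃ τ ∈ Q.inertia (M ≃ₐ[F] M), τ.restrictNormal N = g := by
  rw [← map_inertia_eq F N M Q hQ hQ0] at hg
  obtain ⟨τ, hτ, rfl⟩ := hg
  exact ⟨τ, hτ, rfl⟩

/-- (X18) Unramifiedness descends to subextensions. -/
theorem unramifiedAt_under [IsGalois F N] (Q : Ideal (𝓞 M)) (hQ : Q.IsPrime) (hQ0 : Q ≠ ⊥)
    (hunr : UnramifiedAt F M Q) : UnramifiedAt F N (Q.under (𝓞 N)) := by
  unfold UnramifiedAt at hunr ⊢
  rw [eq_bot_iff]
  intro g hg
  obtain ⟨τ, hτ, rfl⟩ := exists_mem_inertia_restrictNormal_eq F N M Q hQ hQ0 g hg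
  rw [hunr, Subgroup.mem_bot] at hτ
  rw [Subgroup.mem_bot, hτ]
  exact map_one (AlgEquiv.restrictNormalHom N)

end Tower

end Fermat.Agent.S14.Frob.H16
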