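import Fermat.Agent.S14.Frob.API

/-!
# S14 / Frob / Extra (helper16's pool for helper18): restriction of inertia / decomposition groups

Statements copied verbatim from `Frob/Extra.lean` (X17, X17'); they are cited there as
`H16.<name> F N M ...`.
-/

set_option autoImplicit false
set_option linter.unusedSectionVars false
set_option linter.unusedVariables false

namespace Fermat.Agent.S14.Frob.H16

open NumberField
open scoped Pointwise

section Tower

variable (F N M : Type*) [Field F] [NumberField F] [Field N] [NumberField N]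
  [Field M] [NumberField M] [Algebra F N] [Algebra N M] [Algebra F M] [IsScalarTower F N M]
  [IsGalois F M] [IsGalois N M]

/-- Glue: restriction to `N` commutes with the inclusion `𝓞 N → 𝓞 M`. -/
theorem algebraMap_restrictNormal_smul [IsGalois F N] (τ : M ≃ₐ[F] M) (x : 𝓞 N) :
    algebraMap (𝓞 N) (𝓞 M) ((τ.restrictNormal N) • x) = τ • algebraMap (𝓞 N) (𝓞 M) x := by
  apply RingOfIntegers.ext
  exact AlgEquiv.restrictNormal_commutes τ N (x : N)

/-- Auxiliary: the restriction of an element of the decomposition group of `Q` maps `Q ∩ 𝓞 N`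
into itself. -/
theorem restr_smul_mem_under [IsGalois F N] (Q : Ideal (𝓞 M)) {σ : M ≃ₐ[F] M}
    (h : σ ∈ MulAction.stabilizer (M ≃ₐ[F] M) Q) {x : 𝓞 N} (hx : x ∈ Q.under (𝓞 N)) :
    (σ.restrictNormal N) • x ∈ Q.under (𝓞 N) := by
  rw [Ideal.under_def, Ideal.mem_comap] at hx ⊢
  rw [algebraMap_restrictNormal_smul]
  have hσ : σ • Q = Q := MulAction.mem_stabilizer_iff.1 h
  have hmem : σ • algebraMap (𝓞 N) (𝓞 M) x ∈ σ • Q := Ideal.smul_mem_pointwise_smul_iff.2 hx
  rwa [hσ] at hmem

/-- Auxiliary: restriction commutes with inverses. -/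
theorem restr_inv [IsGalois F N] (τ : M ≃ₐ[F] M) :
    (τ.restrictNormal N)⁻¹ = τ⁻¹.restrictNormal N := by
  show (AlgEquiv.restrictNormalHom N τ)⁻¹ = AlgEquiv.restrictNormalHom N τ⁻¹
  rw [map_inv]

/-- (X17) Restriction maps the inertia group of `Q` into the inertia group of `Q ∩ N`. -/
theorem restrictNormal_mem_inertia [IsGalois F N] (Q : Ideal (𝓞 M)) {τ : M ≃ₐ[F] M}
    (h : τ ∈ Q.inertia (M ≃ₐ[F] M)) :
    τ.restrictNormal N ∈ (Q.under (𝓞 N)).inertia (N ≃ₐ[F] N) := by
  intro x
  show algebraMap (𝓞 N) (𝓞 M) ((τ.restrictNormal N) • x - x) ∈ Q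
  rw [map_sub, algebraMap_restrictNormal_smul]
  exact h _

/-- (X17') Restriction maps the decomposition group of `Q` into that of `Q ∩ N`. -/
theorem restrictNormal_mem_stabilizer [IsGalois F N] (Q : Ideal (𝓞 M)) {τ : M ≃ₐ[F] M}
    (h : τ ∈ MulAction.stabilizer (M ≃ₐ[F] M) Q) :
    τ.restrictNormal N ∈ MulAction.stabilizer (N ≃ₐ[F] N) (Q.under (𝓞 N)) := by
  rw [MulAction.mem_stabilizer_iff]
  have hinv : τ⁻¹ ∈ MulAction.stabilizer (M ≃ₐ[F] M) Q := inv_mem h
  apply le_antisymm
  · intro x hx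
    rw [Ideal.mem_pointwise_smul_iff_inv_smul_mem] at hx
    have h1 := restr_smul_mem_under F N M Q h hx
    rwa [smul_inv_smul] at h1
  · intro x hx
    rw [Ideal.mem_pointwise_smul_iff_inv_smul_mem, restr_inv]
    exact restr_smul_mem_under F N M Q hinv hx

end Tower

end Fermat.Agent.S14.Frob.H16
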