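import Fermat.Agent.S14.Frob.API

/-!
# S14 / Frob / Extra (helper16's pool): complete splitting descends to subextensions (X19)
-/

set_option autoImplicit false
set_option linter.unusedSectionVars false
set_option linter.unusedVariables false

namespace Fermat.Agent.S14.Frob.H16

open NumberField
open scoped Pointwise

section Tower

variable (F N M : Type*) [Field F] [NumberField F] [Field N] [NumberField N]
  [Field M] [NumberField M] [Algebra F N] [Algebra N M] [Algebra F M] [IsScalarTower F N M]
  [IsGalois F M] [IsGalois N M]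

/-- (X19) Complete splitting descends to subextensions.
Proof: let `P` be a prime of `N` over `q` and `g` in its stabilizer.  Take a prime `Q` of `M` over
`P` (integral extension: `Ideal.exists_ideal_over_prime_of_isIntegral` or the `Nonempty
(Ideal.primesOver P (𝓞 M))` instance); `Q` lies over `q` (`Ideal.LiesOver.trans`).  Lift `g` to
`τ ∈ Gal(M/F)` (`AlgEquiv.restrictNormalHom_surjective`).  Then `τ • Q` lies over `g • P = P`
(elementwise: `AlgEquiv.restrictNormal_commutes`), so there is `ρ ∈ Gal(M/N)` with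
`ρ • (τ • Q) = Q` (`Frob.exists_smul_eq N M P (τ • Q) Q`).  Now `ρ.restrictScalars F * τ`
stabilizes `Q`, hence is `1` by `h`; restricting to `N` gives `g = 1` (`ρ` fixes `N`). -/
theorem splitsCompletely_of_tower [IsGalois F N] (q : Ideal (𝓞 F))
    (h : SplitsCompletely F M q) : SplitsCompletely F N q := by
  intro P hP hPq
  rw [Subgroup.eq_bot_iff_forall]
  intro g hg
  rw [MulAction.mem_stabilizer_iff] at hg
  -- a prime `Q` of `M` over `P`
  obtain ⟨⟨Q, hQ, hQP⟩⟩ := (inferInstance : Nonempty (Ideal.primesOver P (𝓞 M)))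
  have hQq : Q.LiesOver q := Ideal.LiesOver.trans Q P q
  -- lift `g` to `τ`
  obtain ⟨τ, hτ⟩ := AlgEquiv.restrictNormalHom_surjective (F := F) (K₁ := N) M g
  have hcomm : ∀ x : 𝓞 N, algebraMap (𝓞 N) (𝓞 M) (g • x) = τ • algebraMap (𝓞 N) (𝓞 M) x := by
    intro x
    apply RingOfIntegers.ext
    rw [← hτ]
    exact AlgEquiv.restrictNormal_commutes τ N (x : N)
  -- `τ • Q` lies over `g • P = P`
  have hτQP : (τ • Q).LiesOver P := by
    constructor
    ext x
    rw [Ideal.under_def, Ideal.mem_comap]
    have h1 : algebraMap (𝓞 N) (𝓞 M) x = τ • algebraMap (𝓞 N) (𝓞 M) (g⁻¹ • x) := by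
      rw [← hcomm, smul_inv_smul]
    rw [h1, Ideal.smul_mem_pointwise_smul_iff, ← Ideal.mem_comap, ← Ideal.under_def, ← hQP.over]
    conv_lhs => rw [← hg]
    exact Ideal.mem_pointwise_smul_iff_inv_smul_mem
  have hτQ : (τ • Q).IsPrime := Ideal.IsPrime.smul τ
  obtain ⟨ρ, hρ⟩ := Frob.exists_smul_eq N M P (τ • Q) Q hτQ hQ
  have hρI : ∀ I : Ideal (𝓞 M), (ρ.restrictScalars F) • I = ρ • I := by
    intro I
    ext x
    rw [Ideal.mem_pointwise_smul_iff_inv_smul_mem, Ideal.mem_pointwise_smul_iff_inv_smul_mem]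
    have hx : (ρ.restrictScalars F)⁻¹ • x = ρ⁻¹ • x := RingOfIntegers.ext rfl
    rw [hx]
  have hstab : (ρ.restrictScalars F) * τ ∈ MulAction.stabilizer (M ≃ₐ[F] M) Q := by
    rw [MulAction.mem_stabilizer_iff, mul_smul, hρI, hρ]
  rw [h Q hQ hQq, Subgroup.mem_bot] at hstab
  -- restrict to `N`
  have h2 := congrArg (AlgEquiv.restrictNormalHom N) hstab
  rw [map_mul, map_one, hτ] at h2
  have h3 : AlgEquiv.restrictNormalHom N (ρ.restrictScalars F) = 1 := by
    ext x
    apply (algebraMap N M).injective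
    show algebraMap N M ((ρ.restrictScalars F).restrictNormal N x) = algebraMap N M x
    rw [AlgEquiv.restrictNormal_commutes]
    exact ρ.commutes x
  rw [h3, one_mul] at h2
  exact h2

end Tower

end Fermat.Agent.S14.Frob.H16
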